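import Fermat.Agent.S48.H136.RawES1

/-!
# S48 / Tower A1 — RawES1 WITHOUT any reduction field (row-lead helper556)

helper136's generic engine `H136.eskG_inertia` / `H136.eskG_frob` is generic in the "reduction
field" `F_k ⊆ k((q))`.  Instantiating it with `F_k := ⊤` (all of `k((q))`) removes every statement
about the special fibre from the inputs of RawES1:

* `IsIntG (F1 M) A ⊤ U`  ⟺  `U ∈ A((q))` lies in `ℚ̄ · F1 M` and has nonzero reduction;
* `StableG A ⊤` is trivial;
* `PGI1Top` is the Gauss normalisation `f = c · U₁ / U₂` (elementary: `F1 M` has generators with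
  integral coefficients; NO CoreData, NO "degree does not drop", NO reduction membership);
* `Core1Top` is S18 GLUE verbatim (GoodFamily + `S18.H438.algMain`; the Gauss ring `VcSet` never
  mentions `F_k`);
* `DiamondInt1Top` = the diamond automorphism preserves the Gauss valuation (IGUSA1 `stable`).

`rawES1_of_inputs_top : Core1Top → PGI1Top → HI1Statement → DiamondInt1Top → NormId1Statement →
    Res.RawES1Statement true`.

The statements with `F_k = F1C k M` of `H136/RawES1.lean` are NOT needed.
-/

set_option autoImplicit false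
set_option linter.style.haveILetI false

noncomputable section

namespace Fermat.Agent.S48.H556

open ModularCurve AlgebraicCurve HahnSeries IsLocalRing
open Fermat.Agent.S18 (Qb)
open Fermat.Agent.S48.F1 Fermat.Agent.S48.Res Fermat.Agent.S48.H136

/-- The trivial reduction field: all of `k((q))`. -/
abbrev topK (A : ValuationSubring Qb) :
    IntermediateField (ResidueField A) (LaurentSeries (ResidueField A)) := ⊤

theorem stableG_top (A : ValuationSubring Qb) : StableG A (topK A) :=
  fun _ _ _ => IntermediateField.mem_top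

/-- An `A`-integral series lying in `ℚ̄ · F₀` with nonzero reduction is integral for `F_k = ⊤`. -/
theorem isIntG_top_iff {F₀ : IntermediateField ℚ (LaurentSeries ℚ)} {A : ValuationSubring Qb}
    {U : LaurentSeries A} :
    IsIntG F₀ A (topK A) U ↔
      coeffMap A.subtype U ∈ laurentBaseChange Qb F₀ ∧ coeffMap (residue A) U ≠ 0 :=
  ⟨fun h => ⟨h.1, h.2.2⟩, fun h => ⟨h.1, IntermediateField.mem_top, h.2⟩⟩

/-- **CORE1 (top form)**: the Kummer core for `F1 M` at every place `A` above `p ∤ M ℓ`,
modulus `ℓ`, for ALL integral series with nonzero reduction. -/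
def Core1Top : Prop :=
  ∀ (M ℓ p : ℕ), M ≠ 0 → ℓ.Prime → p.Prime → ¬ p ∣ M * ℓ →
    ∀ A : ValuationSubring Qb, A.LiesOverPrime p → CoreG (F1 M) A (topK A) ℓ

/-- **PGI1 (top form)**: every principal divisor of `ℚ̄ · F1 M` is generated by divisors of
`A`-integral series with nonzero reduction (Gauss normalisation). -/
def PGI1Top : Prop :=
  ∀ (M p : ℕ), M ≠ 0 → p.Prime → ¬ p ∣ M →
    ∀ A : ValuationSubring Qb, A.LiesOverPrime p → PGIG (F1 M) A (topK A)

/-- **DIA-INT (top form)**: the diamond automorphism `δ_p` maps `A`-integral series with nonzero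
reduction to `A`-integral series with nonzero reduction. -/
def DiamondInt1Top : Prop :=
  ∀ (M p : ℕ), M ≠ 0 → p.Prime → ¬ p ∣ M →
    ∀ A : ValuationSubring Qb, A.LiesOverPrime p →
      ∀ (U : LaurentSeries A) (hU : IsIntG (F1 M) A (topK A) U),
        ∃ (W : LaurentSeries A) (hW : IsIntG (F1 M) A (topK A) W),
          toFG hW = diamondAut Qb M (unitOf M p) (toFG hU)

/-- **RawES1 from its five inputs, top form** (exact shape of `Res/Parts.lean`, `s = true`). -/
theorem rawES1_of_inputs_top (hcore : Core1Top) (hpgi : PGI1Top) (hHI : HI1Statement)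
    (hdia : DiamondInt1Top) (hnid : NormId1Statement) : RawES1Statement true := by
  intro M ℓ p hM hℓ hp hpMℓ A hA
  have hpM : ¬ p ∣ M := fun h => hpMℓ (Dvd.dvd.mul_right h ℓ)
  haveI : NeZero p := ⟨hp.ne_zero⟩
  have hC := hcore M ℓ p hM hℓ hp hpMℓ A hA
  have hP := hpgi M p hM hp hpM A hA
  have hst := stableG_top A
  refine ⟨eskG_inertia hℓ.ne_zero hC hP hst, ?_⟩
  intro σ hσ x hx
  obtain ⟨hβ, hα, hPD, hfin, hFI, hN⟩ := hHI M p hM hp hpM
  haveI := hPD
  have hδ : DiamondG (F1 M) A (topK A) (diamondAut Qb M (unitOf M p)) :=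
    ⟨fun σ y => diamondAut_galois M (unitOf M p) σ y, hdia M p hM hp hpM A hA⟩
  have h := eskG_frob hp hℓ.ne_zero hA hC hP hst (alpha1 Qb M p) (beta1 Qb M p) hα hβ hFI hfin hN
    (diamondAut Qb M (unitOf M p)) hδ (hnid M p hM hp hpM) σ hσ x hx
  have hT : hecke1 M p = (Pic0.correspondence (beta1 Qb M p) (alpha1 Qb M p) hβ hα hFI hfin
      hN).toIntLinearMap := by
    rw [hecke1_eq, heckeL, corrOp_eq (beta1 Qb M p) (alpha1 Qb M p) hβ hα hFI hfin hN]
  have hD : diamondS true M p (σ • σ • x)
      = σ • σ • (diamondAut Qb M (unitOf M p) • x) := by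
    show diamond1 M (unitOf M p) (σ • σ • x) = _
    rw [galois_smul_diamond1, galois_smul_diamond1, diamond1_apply, pic0_ofAlgAut_smul]
  rw [hD, hT]
  exact h

/-- The `F1C`-forms of helper136 follow from the top forms (so both adapters are usable). -/
theorem core1Statement_of_top (h : Core1Top) : Core1Statement := by
  intro M ℓ p hM hℓ hp hpMℓ A hA U₁ U₂ h₁ h₂ hred hdiv
  have h₁' : IsIntG (F1 M) A (topK A) U₁ := isIntG_top_iff.2 ⟨h₁.1, h₁.2.2⟩
  have h₂' : IsIntG (F1 M) A (topK A) U₂ := isIntG_top_iff.2 ⟨h₂.1, h₂.2.2⟩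
  exact h M ℓ p hM hℓ hp hpMℓ A hA U₁ U₂ h₁' h₂' hred hdiv

end Fermat.Agent.S48.H556
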