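import Fermat.Agent.S48.H368.ESKD
import Fermat.Agent.S48.H556.RawES1Top

/-!
# S48 / Tower A1 — RawES1 from TRUE inputs, WITHOUT any reduction field (row-lead helper556)

`H136.DiamondInt1Statement` / `H556.DiamondInt1Top` are FALSE (the diamond automorphism moves the
cusp `∞`); helper368's repaired engine `H368.eskD_frob` (generic in the "reduction field" `F_k`)
replaces `PGI + DIA-INT` by `PGID`.  Here it is instantiated with `F_k := ⊤`:

* `PGID1Top`  : principal divisors of `ℚ̄ · F1 M` are generated by the divisors of `A`-integral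
  series `U` with nonzero reduction such that `⟨p⟩ U` is again an `A`-integral series with nonzero
  reduction;
* `ValD1Top`  : the same in "function" form: every `f ≠ 0` is `c · U₁ / U₂` with `U₁, U₂` as above
  (`pgid1Top_of_valD1Top`).  TRUE for `X₁(M)`: write `f = N₁/N₂`, `N_i` polynomials in the generators
  `j(q^d)`, `P_a` with coefficients in `ℚ̄`; the `q`-coefficients of `N_i` lie in a finitely generated
  `ℤ`-module of a number field, so one of them has minimal valuation, `N_i = c_i U_i`;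
  `⟨p⟩ N_i` is again such a polynomial and has the same Gauss valuation (IGUSA1 `stable`).
  NO reduction field, NO CoreData, NO "degree does not drop";
* `Core1Top`  : `H556/RawES1Top.lean` (S18 GLUE; `core1Statement_of_top`).

`rawES1_of_inputsD_top : Core1Top → PGID1Top → H136.HI1Statement → H136.NormId1Statement →
    Res.RawES1Statement true`.
-/

set_option autoImplicit false
set_option linter.style.haveILetI false

noncomputable section

namespace Fermat.Agent.S48.H556

open ModularCurve AlgebraicCurve HahnSeries IsLocalRing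
open Fermat.Agent.S18 (Qb)
open Fermat.Agent.S48.F1 Fermat.Agent.S48.Res Fermat.Agent.S48.H136 Fermat.Agent.S48.H368

/-! ### Generic: the "function" form of `PGID` -/

section Generic

variable {F₀ : IntermediateField ℚ (LaurentSeries ℚ)} {A : ValuationSubring Qb}
  {Fk : IntermediateField (ResidueField A) (LaurentSeries (ResidueField A))}
  {δ : laurentBaseChange Qb F₀ ≃ₐ[Qb] laurentBaseChange Qb F₀}

/-- **VALD ⟹ PGID.**  If every nonzero function is a constant times a quotient of two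
diamond-integral series, then principal divisors are generated by divisors of diamond-integral
series. -/
theorem pgidG_of_ratio [HasPrincipalDivisors Qb (laurentBaseChange Qb F₀)]
    (h : ∀ f : laurentBaseChange Qb F₀, f ≠ 0 →
      ∃ (c : Qb) (U₁ U₂ W₁ W₂ : LaurentSeries A) (h₁ : IsIntG F₀ A Fk U₁)
        (h₂ : IsIntG F₀ A Fk U₂) (hW₁ : IsIntG F₀ A Fk W₁) (hW₂ : IsIntG F₀ A Fk W₂),
        c ≠ 0 ∧ toFG hW₁ = δ (toFG h₁) ∧ toFG hW₂ = δ (toFG h₂) ∧
          f * toFG h₂ = algebraMap Qb (laurentBaseChange Qb F₀) c * toFG h₁) :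
    PGIDG F₀ A Fk δ := by
  intro D hD
  obtain ⟨f, hf, hDf⟩ := hD
  obtain ⟨c, U₁, U₂, W₁, W₂, h₁, h₂, hW₁, hW₂, hc, e₁, e₂, hfU⟩ := h f hf
  obtain ⟨D₁, hD₁, -⟩ :=
    HasPrincipalDivisors.exists_divisor (K := Qb) (toFG h₁) (toFG_ne_zero h₁)
  obtain ⟨D₂, hD₂, -⟩ :=
    HasPrincipalDivisors.exists_divisor (K := Qb) (toFG h₂) (toFG_ne_zero h₂)
  have hDD : D = D₁ - D₂ := by
    ext v
    have hc' : algebraMap Qb (laurentBaseChange Qb F₀) c ≠ 0 := by
      rw [Ne, map_eq_zero]
      exact hc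
    have h1 := congrArg v.ord hfU
    rw [v.ord_mul hf (toFG_ne_zero h₂), v.ord_mul hc' (toFG_ne_zero h₁),
      Fermat.Agent.S29.H222.esk_ord_algebraMap v hc, zero_add] at h1
    rw [Finsupp.sub_apply, hDf v, hD₁ v, hD₂ v]
    omega
  rw [hDD]
  exact sub_mem (AddSubgroup.subset_closure ⟨U₁, W₁, h₁, hW₁, e₁, hD₁⟩)
    (AddSubgroup.subset_closure ⟨U₂, W₂, h₂, hW₂, e₂, hD₂⟩)

end Generic

/-! ### The concrete inputs, top form -/

/-- **PGID1 (top form)**: principal divisors of `ℚ̄ · F1 M` are generated by the divisors of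
`A`-integral series `U` with nonzero reduction such that `⟨p⟩ U` is one as well. -/
def PGID1Top : Prop :=
  ∀ (M p : ℕ), M ≠ 0 → p.Prime → ¬ p ∣ M →
    ∀ A : ValuationSubring Qb, A.LiesOverPrime p →
      PGIDG (F1 M) A (topK A) (diamondAut Qb M (unitOf M p))

/-- **VALD1 (top form)**: every nonzero `f ∈ ℚ̄ · F1 M` is `c · U₁ / U₂` with `U₁, U₂, ⟨p⟩ U₁,
⟨p⟩ U₂` all `A`-integral with nonzero reduction (Gauss normalisation + IGUSA1 `stable`). -/
def ValD1Top : Prop :=
  ∀ (M p : ℕ), M ≠ 0 → p.Prime → ¬ p ∣ M →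
    ∀ A : ValuationSubring Qb, A.LiesOverPrime p →
      ∀ f : F1Bar M, f ≠ 0 →
        ∃ (c : Qb) (U₁ U₂ W₁ W₂ : LaurentSeries A) (h₁ : IsIntG (F1 M) A (topK A) U₁)
          (h₂ : IsIntG (F1 M) A (topK A) U₂) (hW₁ : IsIntG (F1 M) A (topK A) W₁)
          (hW₂ : IsIntG (F1 M) A (topK A) W₂),
          c ≠ 0 ∧ toFG hW₁ = diamondAut Qb M (unitOf M p) (toFG h₁) ∧
            toFG hW₂ = diamondAut Qb M (unitOf M p) (toFG h₂) ∧
            f * toFG h₂ = algebraMap Qb (F1Bar M) c * toFG h₁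

/-- `HasPrincipalDivisors` for `ℚ̄ · F1 M` (part of FF-ALG). -/
def HasPD1 : Prop :=
  ∀ M : ℕ, M ≠ 0 → HasPrincipalDivisors Qb (F1Bar M)

theorem pgid1Top_of_valD1Top (hPD : HasPD1) (h : ValD1Top) : PGID1Top := by
  intro M p hM hp hpM A hA
  haveI := hPD M hM
  exact pgidG_of_ratio (h M p hM hp hpM A hA)

/-- **RawES1 from its four TRUE inputs, top form** (exact shape of `Res/Parts.lean`,
orientation `s = true`). -/
theorem rawES1_of_inputsD_top (hcore : Core1Top) (hpgid : PGID1Top)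
    (hHI : HI1Statement) (hnid : NormId1Statement) : RawES1Statement true := by
  intro M ℓ p hM hℓ hp hpMℓ A hA
  have hpM : ¬ p ∣ M := fun h => hpMℓ (Dvd.dvd.mul_right h ℓ)
  haveI : NeZero p := ⟨hp.ne_zero⟩
  have hC := hcore M ℓ p hM hℓ hp hpMℓ A hA
  have hPD := hpgid M p hM hp hpM A hA
  have hP := pgiG_of_pgidG hPD
  have hst := stableG_top A
  refine ⟨eskG_inertia hℓ.ne_zero hC hP hst, ?_⟩
  intro σ hσ x hx
  obtain ⟨hβ, hα, hPDiv, hfin, hFI, hN⟩ := hHI M p hM hp hpM
  haveI := hPDiv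
  have h := eskD_frob hp hℓ.ne_zero hA hC hst (alpha1 Qb M p) (beta1 Qb M p) hα hβ hFI hfin hN
    (diamondAut Qb M (unitOf M p)) (fun σ y => diamondAut_galois M (unitOf M p) σ y) hPD
    (hnid M p hM hp hpM) σ hσ x hx
  have hT : hecke1 M p = (Pic0.correspondence (beta1 Qb M p) (alpha1 Qb M p) hβ hα hFI hfin
      hN).toIntLinearMap := by
    rw [hecke1_eq, heckeL, corrOp_eq (beta1 Qb M p) (alpha1 Qb M p) hβ hα hFI hfin hN]
  have hD : diamondS true M p (σ • σ • x)
      = σ • σ • (diamondAut Qb M (unitOf M p) • x) := by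
    show diamond1 M (unitOf M p) (σ • σ • x) = _
    rw [galois_smul_diamond1, galois_smul_diamond1, diamond1_apply, pic0_ofAlgAut_smul]
  rw [hD, hT]
  exact h

/-- **RawES1 from `Core1Top`, `ValD1Top`, FF-ALG (`HasPD1`, `HI1`) and `NormId1`.** -/
theorem rawES1_of_val (hcore : Core1Top) (hPD : HasPD1) (hval : ValD1Top)
    (hHI : HI1Statement) (hnid : NormId1Statement) : RawES1Statement true :=
  rawES1_of_inputsD_top hcore (pgid1Top_of_valD1Top hPD hval) hHI hnid

end Fermat.Agent.S48.H556
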