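import Fermat.Agent.S48.H556.RawES1D
import Fermat.Agent.S48.Res.ChainOcc
import Fermat.Agent.S48.H451.Eigenclass1
import Fermat.Agent.S48.Kum.M4b1
import Fermat.Agent.S48.Top.ResultOf

/-!
# S48 — END-TO-END DRY RUN of Tower A1 (row-lead helper556)

`s48_of_tower : Core1Top → HasPD1 → ValD1Top → H136.NormId1Statement → Kum.Leaves → Top.S48Statement`

i.e. the frozen statement S48 from the leaves of record of the three sub-towers

* A1-RED  : `H556.Core1Top`                                   (sub-architect helper856),
* A1-ES   : `H556.ValD1Top`, `H556.HasPD1`, `H136.NormId1Statement`   (helper136 / helper368 engine),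
* A1-KUM  : `Kum.Leaves` (9 fields; its field `corr` is also HI1)      (sub-architect helper822),

everything else (chain, INT, cohomology side, layer A', engine, Kummer assembly) being on main.
-/

set_option autoImplicit false
set_option linter.style.haveILetI false

noncomputable section

namespace Fermat.Agent.S48.H556

open Fermat.Agent.S48.F1 Fermat.Agent.S48.Res Fermat.Agent.S48.H136

/-- HI1 is the leaf `corr` of A1-KUM. -/
theorem hi1_of_leaves (L : Fermat.Agent.S48.Kum.Leaves) : HI1Statement := by
  intro M p _ hM hp hpM
  haveI : NeZero M := ⟨hM⟩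
  haveI : Fact p.Prime := ⟨hp⟩
  exact L.corr M p hpM

/-- **RawES1 from the leaves of record.** -/
theorem rawES1_of_tower (hcore : Core1Top) (hPD : HasPD1) (hval : ValD1Top)
    (hnid : NormId1Statement) (L : Fermat.Agent.S48.Kum.Leaves) : RawES1Statement true :=
  rawES1_of_val hcore hPD hval (hi1_of_leaves L) hnid

/-- **RES from the leaves of record.** -/
theorem residual_of_tower (hcore : Core1Top) (hPD : HasPD1) (hval : ValD1Top)
    (hnid : NormId1Statement) (L : Fermat.Agent.S48.Kum.Leaves) :
    Fermat.Agent.S48.Top.ResidualStatement :=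
  residual_of_three (rawES1_of_tower hcore hPD hval hnid L)
    Fermat.Agent.S48.H451.eigenclass1 (Fermat.Agent.S48.Kum.m4b1_of_leaves L)

/-- **The frozen statement S48 from the leaves of record of Tower A1.** -/
theorem s48_of_tower (hcore : Core1Top) (hPD : HasPD1) (hval : ValD1Top)
    (hnid : NormId1Statement) (L : Fermat.Agent.S48.Kum.Leaves) :
    Fermat.Agent.S48.Top.S48Statement :=
  Fermat.Agent.S48.Top.result_of_residual (residual_of_tower hcore hPD hval hnid L)

end Fermat.Agent.S48.H556
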